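import Fermat.Agent.GD.Engine.Artin

/-!
# Additive functions vanishing on permutation twists of order prime to `p`
-/

set_option autoImplicit false
set_option linter.unusedSectionVars false
set_option linter.style.haveILetI false

noncomputable section

namespace Fermat.Agent.GD.Artin

/-- The functions on the cosets of a subgroup with values in a module, diagonal action. -/
def PermMod {Δ : Type} [Group Δ] (H : Subgroup Δ) (M : Type) : Type := Δ ⧸ H → M

instance {Δ : Type} [Group Δ] (H : Subgroup Δ) (M : Type) [AddCommGroup M] :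
    AddCommGroup (PermMod H M) := inferInstanceAs (AddCommGroup (Δ ⧸ H → M))

instance {Δ : Type} [Group Δ] [Finite Δ] (H : Subgroup Δ) (M : Type) [Finite M] :
    Finite (PermMod H M) := inferInstanceAs (Finite (Δ ⧸ H → M))

instance {Δ : Type} [Group Δ] (H : Subgroup Δ) (M : Type) [AddCommGroup M]
    [DistribMulAction Δ M] : DistribMulAction Δ (PermMod H M) where
  smul g φ := fun s => g • φ (g⁻¹ • s)
  one_smul φ := funext fun s => by
    show (1 : Δ) • φ ((1 : Δ)⁻¹ • s) = φ s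
    rw [inv_one, one_smul, one_smul]
  mul_smul g h φ := funext fun s => by
    show (g * h) • φ ((g * h)⁻¹ • s) = g • (h • φ (h⁻¹ • g⁻¹ • s))
    rw [mul_inv_rev, mul_smul, mul_smul]
  smul_zero g := funext fun s => smul_zero g
  smul_add g φ ψ := funext fun s => smul_add g _ _

theorem PermMod.smul_apply {Δ : Type} [Group Δ] {H : Subgroup Δ} {M : Type} [AddCommGroup M]
    [DistribMulAction Δ M] (g : Δ) (φ : PermMod H M) (s : Δ ⧸ H) :
    (g • φ) s = g • φ (g⁻¹ • s) := rfl

variable {p : ℕ} [hp : Fact p.Prime] {Δ : Type} [Group Δ] [Finite Δ]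

local notation "𝔸" => MonoidAlgebra (ZMod p) Δ

/-- A linear map commuting with the group is linear over the group algebra. -/
def intertwine {V W : AMod (ZMod p) 𝔸} (T : V →ₗ[ZMod p] W)
    (hT : ∀ (g : Δ) (v : V), T (MonoidAlgebra.of (ZMod p) Δ g • v) =
      MonoidAlgebra.of (ZMod p) Δ g • T v) : V →ₗ[𝔸] W where
  toFun := T
  map_add' := T.map_add
  map_smul' a v := by
    rw [RingHom.id_apply]
    induction a using MonoidAlgebra.induction_on with
    | of g => exact hT g v
    | add a b ha hb => rw [add_smul, map_add, ha, hb, add_smul]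
    | smul c a ha => rw [smul_assoc, map_smul, ha, smul_assoc]

/-! ## Permutation twists over the group algebra -/

/-- The diagonal representation on functions of the cosets. -/
def permRep (H : Subgroup Δ) (V : AMod (ZMod p) 𝔸) :
    Δ →* Module.End (ZMod p) (Δ ⧸ H → V) where
  toFun g :=
    { toFun := fun φ s => MonoidAlgebra.of (ZMod p) Δ g • φ (g⁻¹ • s)
      map_add' := fun a b => funext fun s => smul_add _ _ _
      map_smul' := fun c a => funext fun s => smul_comm _ c _ }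
  map_one' := LinearMap.ext fun φ => funext fun s => by
    show MonoidAlgebra.of (ZMod p) Δ 1 • φ ((1 : Δ)⁻¹ • s) = φ s
    rw [map_one, one_smul, inv_one, one_smul]
  map_mul' g h := LinearMap.ext fun φ => funext fun s => by
    show MonoidAlgebra.of (ZMod p) Δ (g * h) • φ ((g * h)⁻¹ • s) =
      MonoidAlgebra.of (ZMod p) Δ g • (MonoidAlgebra.of (ZMod p) Δ h • φ (h⁻¹ • g⁻¹ • s))
    rw [map_mul, mul_smul, mul_inv_rev, mul_smul h⁻¹]

/-- The permutation twist of a module. -/
def perm (H : Subgroup Δ) (V : AMod (ZMod p) 𝔸) : AMod (ZMod p) 𝔸 := ofRep (ZMod p) (permRep H V)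

theorem ofRep_smul {V : Type} [AddCommGroup V] [Module (ZMod p) V] [Finite V]
    (ρ : Δ →* Module.End (ZMod p) V) (g : Δ) (v : (ofRep (ZMod p) ρ : AMod (ZMod p) 𝔸)) :
    MonoidAlgebra.of (ZMod p) Δ g • v = (ρ g (show V from v) : V) := by
  show ((MonoidAlgebra.lift (ZMod p) _ Δ) ρ (MonoidAlgebra.of (ZMod p) Δ g)) v = _
  rw [MonoidAlgebra.lift_of]

theorem tr_perm (H : Subgroup Δ) (V : AMod (ZMod p) 𝔸) (g : Δ) :
    (perm H V).tr (MonoidAlgebra.of (ZMod p) Δ g) =
      (Nat.card {s : Δ ⧸ H // g • s = s} : ZMod p) * V.tr (MonoidAlgebra.of (ZMod p) Δ g) := by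
  classical
  have : Fintype (Δ ⧸ H) := Fintype.ofFinite _
  let gV : V →ₗ[ZMod p] V := Algebra.lsmul (ZMod p) (ZMod p) V (MonoidAlgebra.of (ZMod p) Δ g)
  have hsum : permRep H V g = ∑ s : Δ ⧸ H, (LinearMap.single (ZMod p) (fun _ : Δ ⧸ H => V.carrier) s).comp
      (gV.comp (LinearMap.proj (R := ZMod p) (φ := fun _ : Δ ⧸ H => V.carrier) (g⁻¹ • s))) := by
    refine LinearMap.ext fun φ => funext fun t => ?_
    simp only [LinearMap.coe_sum, Finset.sum_apply, LinearMap.comp_apply, LinearMap.proj_apply,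
      LinearMap.single_apply]
    rw [Finset.sum_eq_single t (fun u _ hu => Pi.single_eq_of_ne (Ne.symm hu) _)
      (fun h => absurd (Finset.mem_univ t) h), Pi.single_eq_same]
    rfl
  have htr : (perm H V).tr (MonoidAlgebra.of (ZMod p) Δ g) =
      LinearMap.trace (ZMod p) (Δ ⧸ H → V) (permRep H V g) := by
    rw [AMod.tr_apply]
    exact congrArg (LinearMap.trace (ZMod p) (Δ ⧸ H → V))
      (LinearMap.ext fun v => ofRep_smul (permRep H V) g v)
  rw [htr, hsum, map_sum]
  calc ∑ s : Δ ⧸ H, LinearMap.trace (ZMod p) (Δ ⧸ H → V)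
        ((LinearMap.single (ZMod p) (fun _ : Δ ⧸ H => V.carrier) s).comp
          (gV.comp (LinearMap.proj (R := ZMod p) (φ := fun _ : Δ ⧸ H => V.carrier) (g⁻¹ • s))))
      = ∑ s : Δ ⧸ H, if g • s = s then LinearMap.trace (ZMod p) V gV else 0 := by
        refine Finset.sum_congr rfl fun s _ => ?_
        rw [LinearMap.trace_comp_comm']
        by_cases hs : g • s = s
        · rw [if_pos hs]
          congr 1
          refine LinearMap.ext fun v => ?_
          simp only [LinearMap.comp_apply, LinearMap.proj_apply, LinearMap.single_apply]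
          rw [inv_smul_eq_iff.mpr hs.symm, Pi.single_eq_same]
        · rw [if_neg hs]
          convert map_zero (LinearMap.trace (ZMod p) V)
          refine LinearMap.ext fun v => ?_
          simp only [LinearMap.comp_apply, LinearMap.proj_apply, LinearMap.single_apply,
            LinearMap.zero_apply]
          rw [Pi.single_eq_of_ne fun h => hs (inv_smul_eq_iff.mp h).symm, map_zero]
    _ = (Nat.card {s : Δ ⧸ H // g • s = s} : ZMod p) * V.tr (MonoidAlgebra.of (ZMod p) Δ g) := by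
        rw [← Finset.sum_filter, Finset.sum_const, nsmul_eq_mul, Nat.card_eq_fintype_card,
          Fintype.card_subtype, AMod.tr_apply]

/-! ## Removing a `p`-part of the subgroup -/

theorem perm_index_p {F : AMod (ZMod p) 𝔸 → ℤ} (hF : IsAdditive F) {H₁ H : Subgroup Δ}
    (hle : H₁ ≤ H) (hnorm : ∀ h ∈ H, ∀ x ∈ H₁, h * x * h⁻¹ ∈ H₁) (hidx : H₁.relIndex H = p)
    (V : AMod (ZMod p) 𝔸) : F (perm H₁ V) = p * F (perm H V) := by
  classical
  let q : Δ ⧸ H₁ → Δ ⧸ H := Quotient.map' id fun a b h => by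
    rw [QuotientGroup.leftRel_apply] at h ⊢
    exact hle h
  have hqmk : ∀ a : Δ, q (a : Δ ⧸ H₁) = (a : Δ ⧸ H) := fun a => rfl
  have hqsurj : Function.Surjective q := fun s => by
    obtain ⟨a, rfl⟩ := QuotientGroup.mk_surjective s
    exact ⟨(a : Δ ⧸ H₁), hqmk a⟩
  have hqsmul : ∀ (g : Δ) (s : Δ ⧸ H₁), q (g • s) = g • q s := fun g s => by
    obtain ⟨a, rfl⟩ := QuotientGroup.mk_surjective s
    rfl
  -- an element outside `H₁`
  obtain ⟨t, ht, htH₁⟩ : ∃ t ∈ H, t ∉ H₁ := by
    by_contra hc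
    push Not at hc
    rw [Subgroup.relIndex, Subgroup.subgroupOf_eq_top.mpr hc, Subgroup.index_top] at hidx
    exact hp.out.ne_one hidx.symm
  let R : Δ ⧸ H₁ → Δ ⧸ H₁ := Quotient.map' (fun a => a * t) fun a b h => by
    rw [QuotientGroup.leftRel_apply] at h ⊢
    have := hnorm t⁻¹ (H.inv_mem ht) _ h
    rw [inv_inv] at this
    rwa [mul_inv_rev, mul_assoc, ← mul_assoc a⁻¹, ← mul_assoc]
  have hRmk : ∀ a : Δ, R (a : Δ ⧸ H₁) = ((a * t : Δ) : Δ ⧸ H₁) := fun a => rfl
  have hRsmul : ∀ (g : Δ) (s : Δ ⧸ H₁), R (g • s) = g • R s := fun g s => by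
    obtain ⟨a, rfl⟩ := QuotientGroup.mk_surjective s
    show ((g * a * t : Δ) : Δ ⧸ H₁) = ((g * (a * t) : Δ) : Δ ⧸ H₁)
    rw [mul_assoc]
  have hqR : ∀ s, q (R s) = q s := fun s => by
    obtain ⟨a, rfl⟩ := QuotientGroup.mk_surjective s
    rw [hRmk, hqmk, hqmk, QuotientGroup.eq, mul_inv_rev, mul_assoc, inv_mul_cancel, mul_one]
    exact H.inv_mem ht
  let N₁ : Subgroup H := H₁.subgroupOf H
  haveI : N₁.Normal := ⟨fun x hx h => hnorm h h.2 x hx⟩
  have hcard : Nat.card (H ⧸ N₁) = p := hidx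
  have hgen : ∀ h ∈ H, ∃ i : ℕ, ((h : Δ) : Δ ⧸ H₁) = ((t ^ i : Δ) : Δ ⧸ H₁) := fun h hh => by
    have hne : (QuotientGroup.mk' N₁ ⟨t, ht⟩) ≠ 1 := fun h1 =>
      htH₁ ((QuotientGroup.eq_one_iff (N := N₁) ⟨t, ht⟩).mp h1)
    have := mem_powers_of_prime_card hcard hne (g' := QuotientGroup.mk' N₁ ⟨h, hh⟩)
    obtain ⟨i, hi⟩ := this
    refine ⟨i, ?_⟩
    simp only [← map_pow] at hi
    have h2 := QuotientGroup.eq.mp hi.symm
    rw [QuotientGroup.eq]
    exact h2
  have htp : t ^ p ∈ H₁ := by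
    have h1 : (QuotientGroup.mk' N₁ ⟨t, ht⟩) ^ p = 1 := by rw [← hcard]; exact pow_card_eq_one'
    rw [← map_pow] at h1
    exact (QuotientGroup.eq_one_iff (N := N₁) _).mp h1
  have hRit : ∀ (i : ℕ) (a : Δ), R^[i] (a : Δ ⧸ H₁) = ((a * t ^ i : Δ) : Δ ⧸ H₁) := fun i => by
    induction i with
    | zero => intro a; simp
    | succ i ih => intro a; rw [Function.iterate_succ_apply', ih, hRmk, mul_assoc, ← pow_succ]
  have hconst : ∀ φ : Δ ⧸ H₁ → V, (∀ s, φ (R s) = φ s) → ∀ s s', q s = q s' → φ s = φ s' := by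
    intro φ hφ s s' hss
    obtain ⟨a, rfl⟩ := QuotientGroup.mk_surjective s
    obtain ⟨b, rfl⟩ := QuotientGroup.mk_surjective s'
    rw [hqmk, hqmk, QuotientGroup.eq] at hss
    obtain ⟨i, hi⟩ := hgen _ hss
    have hit : ∀ (j : ℕ) s, φ (R^[j] s) = φ s := fun j => by
      induction j with
      | zero => intro s; rfl
      | succ j ih => intro s; rw [Function.iterate_succ_apply, ih, hφ]
    rw [← hit i (a : Δ ⧸ H₁), hRit]
    congr 1
    rw [QuotientGroup.eq] at hi ⊢
    have : (a * t ^ i)⁻¹ * b = (t ^ i)⁻¹ * (a⁻¹ * b) := by group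
    rw [this]
    have h3 := H₁.inv_mem hi
    rwa [mul_inv_rev, inv_inv] at h3
  -- the operator
  let τ : Module.End (ZMod p) (perm H₁ V) :=
    { toFun := fun φ s => (show Δ ⧸ H₁ → V from φ) (R s)
      map_add' := fun a b => rfl
      map_smul' := fun c a => rfl }
  have hτg : ∀ (g : Δ) (φ : perm H₁ V),
      τ (MonoidAlgebra.of (ZMod p) Δ g • φ) = MonoidAlgebra.of (ZMod p) Δ g • τ φ := fun g φ => by
    rw [show MonoidAlgebra.of (ZMod p) Δ g • φ = _ from ofRep_smul (permRep H₁ V) g φ,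
      show MonoidAlgebra.of (ZMod p) Δ g • τ φ = _ from ofRep_smul (permRep H₁ V) g (τ φ)]
    funext s
    show MonoidAlgebra.of (ZMod p) Δ g • (show Δ ⧸ H₁ → V from φ) (g⁻¹ • R s) =
      MonoidAlgebra.of (ZMod p) Δ g • (show Δ ⧸ H₁ → V from φ) (R (g⁻¹ • s))
    rw [hRsmul]
  let τA : Module.End 𝔸 (perm H₁ V) := intertwine τ hτg
  let T : Module.End 𝔸 (perm H₁ V) := τA - 1
  have hτpow : ∀ (i : ℕ) (φ : perm H₁ V) s,
      (show Δ ⧸ H₁ → V from (τA ^ i) φ) s = (show Δ ⧸ H₁ → V from φ) (R^[i] s) := fun i => by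
    induction i with
    | zero => intro φ s; rfl
    | succ i ih =>
      intro φ s
      rw [pow_succ, Module.End.mul_apply, ih, Function.iterate_succ_apply']
      rfl
  have hTp : ∀ φ, (T ^ p) φ = 0 := fun φ => by
    rcases subsingleton_or_nontrivial (perm H₁ V) with hs | hs
    · exact Subsingleton.elim _ _
    haveI : CharP (Module.End 𝔸 (perm H₁ V)) p := by
      refine (CharP.charP_iff_prime_eq_zero hp.out).mpr (LinearMap.ext fun v => ?_)
      rw [Module.End.natCast_apply, LinearMap.zero_apply, ← Nat.cast_smul_eq_nsmul (ZMod p),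
        ZMod.natCast_self, zero_smul]
    rw [sub_pow_char_of_commute p (Commute.one_right τA), one_pow, LinearMap.sub_apply,
      Module.End.one_apply, sub_eq_zero]
    funext s
    obtain ⟨a, rfl⟩ := QuotientGroup.mk_surjective s
    refine (hτpow p φ _).trans (congrArg (show Δ ⧸ H₁ → V from φ) ?_)
    rw [hRit, QuotientGroup.eq, mul_inv_rev, mul_assoc, inv_mul_cancel, mul_one]
    exact H₁.inv_mem htp
  -- the fixed part
  have hfix : ∀ φ : perm H₁ V, φ ∈ LinearMap.ker T ↔
      ∀ s, (show Δ ⧸ H₁ → V from φ) (R s) = (show Δ ⧸ H₁ → V from φ) s := fun φ => by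
    rw [LinearMap.mem_ker, LinearMap.sub_apply, Module.End.one_apply, sub_eq_zero]
    exact ⟨fun h s => congrFun h s, fun h => funext h⟩
  let pullₖ : perm H V →ₗ[ZMod p] perm H₁ V :=
    { toFun := fun φ s => (show Δ ⧸ H → V from φ) (q s)
      map_add' := fun a b => rfl
      map_smul' := fun c a => rfl }
  have hpullg : ∀ (g : Δ) (φ : perm H V),
      pullₖ (MonoidAlgebra.of (ZMod p) Δ g • φ) = MonoidAlgebra.of (ZMod p) Δ g • pullₖ φ := by
    intro g φ
    rw [show MonoidAlgebra.of (ZMod p) Δ g • φ = _ from ofRep_smul (permRep H V) g φ,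
      show MonoidAlgebra.of (ZMod p) Δ g • pullₖ φ = _ from ofRep_smul (permRep H₁ V) g (pullₖ φ)]
    funext s
    show MonoidAlgebra.of (ZMod p) Δ g • (show Δ ⧸ H → V from φ) (g⁻¹ • q s) =
      MonoidAlgebra.of (ZMod p) Δ g • (show Δ ⧸ H → V from φ) (q (g⁻¹ • s))
    rw [hqsmul]
  let pull : perm H V →ₗ[𝔸] LinearMap.ker T :=
    (intertwine pullₖ hpullg).codRestrict (LinearMap.ker T) fun φ => (hfix _).mpr fun s =>
      congrArg (show Δ ⧸ H → V from φ) (hqR s)
  have hpullb : Function.Bijective pull := by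
    refine ⟨fun φ ψ h => funext fun s => ?_, fun φ => ?_⟩
    · obtain ⟨u, rfl⟩ := hqsurj s
      exact congrFun (congrArg Subtype.val h) u
    · choose sec hsec using hqsurj
      refine ⟨fun s => (show Δ ⧸ H₁ → V from φ.1) (sec s), Subtype.ext (funext fun u => ?_)⟩
      exact hconst _ ((hfix _).mp φ.2) _ _ (hsec (q u))
  let K : ℕ → Submodule 𝔸 (perm H₁ V) := fun j => LinearMap.ker (T ^ j)
  have hK1 : F ((perm H₁ V).sub (K 1)) = F (perm H V) :=
    ((hF.congr (LinearEquiv.ofBijective pull hpullb)).trans (hF.congr (V := (perm H₁ V).sub (LinearMap.ker T))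
      (LinearEquiv.ofEq _ _ (by simp [K])))).symm
  -- counting
  have hKmap : ∀ j, ∀ φ ∈ K (j + 1), (T ^ j) φ ∈ K 1 := fun j φ hφ => by
    show (T ^ 1) ((T ^ j) φ) = 0
    rw [← Module.End.mul_apply, ← pow_add, add_comm]
    exact hφ
  let u : ∀ j, K (j + 1) →ₗ[𝔸] K 1 := fun j =>
    ((T ^ j).comp (K (j + 1)).subtype).codRestrict (K 1) fun φ => hKmap j φ.1 φ.2
  have hKle : ∀ j, K j ≤ K (j + 1) := fun j φ hφ => by
    show (T ^ (j + 1)) φ = 0
    rw [pow_succ', Module.End.mul_apply, show (T ^ j) φ = 0 from hφ, map_zero]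
  have hkeru : ∀ j, LinearMap.ker (u j) = (K j).comap (K (j + 1)).subtype := fun j => by
    ext φ
    rw [LinearMap.mem_ker, Submodule.mem_comap]
    exact ⟨fun h => congrArg Subtype.val h, fun h => Subtype.ext h⟩
  have hcardK : ∀ j, Nat.card (K (j + 1)) = Nat.card (K j) * Nat.card (LinearMap.range (u j)) :=
    fun j => by
    rw [Submodule.card_eq_card_quotient_mul_card (LinearMap.ker (u j)),
      Nat.card_congr (u j).quotKerEquivRange.toEquiv, hkeru,
      Nat.card_congr (Submodule.comapSubtypeEquivOfLe (hKle j)).toEquiv]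
  have hb : ∀ j, Nat.card (LinearMap.range (u j)) ≤ Nat.card (K 1) := fun j =>
    Nat.card_le_card_of_injective Subtype.val Subtype.val_injective
  have hK0 : Nat.card (K 0) = 1 := by
    rw [show K 0 = ⊥ from LinearMap.ker_id]
    simp
  have hupper : ∀ j, Nat.card (K j) ≤ Nat.card (K 1) ^ j := fun j => by
    induction j with
    | zero => rw [hK0, pow_zero]
    | succ j ih => rw [hcardK, pow_succ]; exact Nat.mul_le_mul ih (hb j)
  have htop : Nat.card (K p) = Nat.card (K 1) ^ p := by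
    rw [show K p = ⊤ from LinearMap.ker_eq_top.mpr (LinearMap.ext hTp),
      Nat.card_congr (LinearEquiv.ofTop (⊤ : Submodule 𝔸 (perm H₁ V)) rfl).toEquiv,
      show K 1 = LinearMap.ker T by simp [K],
      ← Nat.card_congr (Equiv.ofBijective pull hpullb)]
    show Nat.card (Δ ⧸ H₁ → V) = Nat.card (Δ ⧸ H → V) ^ p
    rw [Nat.card_fun, Nat.card_fun, ← pow_mul, ← Subgroup.index_eq_card, ← Subgroup.index_eq_card]
    refine congrArg (Nat.card V.carrier ^ ·) ?_
    rw [← Subgroup.relIndex_mul_index hle, hidx, mul_comm]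
  have hsurj : ∀ j < p, Function.Surjective (u j) := by
    intro j hj
    rw [← LinearMap.range_eq_top]
    by_contra hne
    have hlt : Nat.card (LinearMap.range (u j)) < Nat.card (K 1) := by
      refine lt_of_le_of_ne (hb j) fun he => hne ?_
      exact SetLike.coe_injective (Set.eq_univ_of_forall fun x => by
        obtain ⟨y, rfl⟩ := ((Nat.bijective_iff_injective_and_card Subtype.val).mpr
          ⟨Subtype.val_injective, he⟩).2 x
        exact y.2)
    have hstep : ∀ i, Nat.card (K (j + 1 + i)) < Nat.card (K 1) ^ (j + 1 + i) := fun i => by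
      induction i with
      | zero =>
        rw [Nat.add_zero, hcardK, pow_succ]
        exact Nat.mul_lt_mul_of_le_of_lt (hupper j) hlt (pow_pos Nat.card_pos j)
      | succ i ih =>
        rw [← Nat.add_assoc, hcardK, pow_succ]
        exact Nat.mul_lt_mul_of_lt_of_le ih (hb _) Nat.card_pos
    have := hstep (p - (j + 1))
    rw [Nat.add_sub_cancel' hj, htop] at this
    exact lt_irrefl _ this
  have hFK : ∀ j ≤ p, F ((perm H₁ V).sub (K j)) = j * F ((perm H₁ V).sub (K 1)) := fun j => by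
    induction j with
    | zero =>
      intro _
      haveI : Subsingleton ((perm H₁ V).sub (K 0)) := by
        show Subsingleton (K 0)
        rw [show K 0 = ⊥ from LinearMap.ker_id]
        infer_instance
      rw [hF.subsingleton, Nat.cast_zero, zero_mul]
    | succ j ih =>
      intro hj
      rw [hF ((perm H₁ V).sub (K j)) ((perm H₁ V).sub (K (j + 1))) ((perm H₁ V).sub (K 1))
        (Submodule.inclusion (hKle j)) (u j) (Submodule.inclusion_injective _) (hsurj j hj)
        (LinearMap.exact_iff.mpr (by rw [hkeru, Submodule.range_inclusion])),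
        ih (Nat.le_of_succ_le hj)]
      push_cast
      ring
  rw [← hK1, ← hFK p le_rfl]
  exact (hF.congr (W := perm H₁ V) (LinearEquiv.ofTop (K p)
    (LinearMap.ker_eq_top.mpr (LinearMap.ext hTp)))).symm

/-- A subgroup with a normal subgroup of order prime to `p` and `p`-power index. -/
theorem perm_eq_zero {F : AMod (ZMod p) 𝔸 → ℤ} (hF : IsAdditive F) (V : AMod (ZMod p) 𝔸)
    (h0 : ∀ H : Subgroup Δ, ¬ p ∣ Nat.card H → F (perm H V) = 0) :
    ∀ (a : ℕ) (H D : Subgroup Δ), D ≤ H → (∀ h ∈ H, ∀ x ∈ D, h * x * h⁻¹ ∈ D) →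
      ¬ p ∣ Nat.card D → D.relIndex H = p ^ a → F (perm H V) = 0 := by
  intro a
  induction a with
  | zero =>
    intro H D hle hn hD hidx
    rw [pow_zero, Subgroup.relIndex_eq_one] at hidx
    exact h0 H (le_antisymm hle hidx ▸ hD)
  | succ a ih =>
    intro H D hle hn hD hidx
    haveI : (D.subgroupOf H).Normal := ⟨fun x hx h => hn h h.2 x hx⟩
    have hcard : Nat.card (H ⧸ D.subgroupOf H) = p ^ (a + 1) := hidx
    obtain ⟨K, hK⟩ := Sylow.exists_subgroup_card_pow_prime p
      (G := H ⧸ D.subgroupOf H) (n := a) (hcard ▸ pow_dvd_pow p (Nat.le_succ a))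
    have hKidx : K.index = p := by
      have := K.card_mul_index
      rw [hK, hcard, pow_succ] at this
      exact mul_left_cancel₀ (pow_ne_zero a hp.out.ne_zero) this
    haveI : K.Normal := Subgroup.normal_of_index_eq_minFac_card (by
      rw [hKidx, hcard, Nat.pow_minFac (Nat.succ_ne_zero a), hp.out.minFac_eq])
    let K' : Subgroup H := K.comap (QuotientGroup.mk' (D.subgroupOf H))
    let H₁ : Subgroup Δ := K'.map H.subtype
    have hH₁ : H₁ ≤ H := Subgroup.map_subtype_le K'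
    have hsub : H₁.subgroupOf H = K' := Subgroup.comap_map_eq_self_of_injective
      H.subtype_injective K'
    have hidx₁ : H₁.relIndex H = p := by
      rw [Subgroup.relIndex, hsub, Subgroup.index_comap_of_surjective _
        (QuotientGroup.mk'_surjective _), hKidx]
    have hDH₁ : D ≤ H₁ := fun x hx => ⟨⟨x, hle hx⟩, by
      show QuotientGroup.mk' (D.subgroupOf H) ⟨x, hle hx⟩ ∈ K
      rw [show QuotientGroup.mk' (D.subgroupOf H) ⟨x, hle hx⟩ = 1 from
        (QuotientGroup.eq_one_iff _).mpr hx]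
      exact one_mem K, rfl⟩
    have h1 := perm_index_p hF hH₁ (fun h hh x hx => by
      have hm : (⟨x, hH₁ hx⟩ : H) ∈ K' := hsub ▸ hx
      exact ⟨⟨h, hh⟩ * ⟨x, hH₁ hx⟩ * ⟨h, hh⟩⁻¹, (inferInstance : K'.Normal).conj_mem _ hm _,
        rfl⟩) hidx₁ V
    rw [ih H₁ D hDH₁ (fun h hh => hn h (hH₁ hh)) hD (mul_right_cancel₀ hp.out.ne_zero (by
      rw [← pow_succ, ← hidx, ← Subgroup.relIndex_mul_relIndex D H₁ H hDH₁ hH₁, hidx₁]))] at h1
    exact (mul_eq_zero.mp h1.symm).resolve_left (by exact_mod_cast hp.out.ne_zero)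

/-! ## The permutation characters on cyclic subgroups of order prime to `p` -/

/-- The cyclic subgroups of order prime to `p`. -/
def IsCycReg (p : ℕ) (C : Subgroup Δ) : Prop :=
  ∃ c : Δ, ¬ p ∣ orderOf c ∧ Subgroup.zpowers c = C

/-- A subgroup with a normal subgroup of order prime to `p` and `p`-power index, as a property. -/
def IsPNilp (p : ℕ) (H : Subgroup Δ) : Prop :=
  ∃ (D : Subgroup Δ) (a : ℕ), D ≤ H ∧ (∀ h ∈ H, ∀ x ∈ D, h * x * h⁻¹ ∈ D) ∧
    ¬ p ∣ Nat.card D ∧ D.relIndex H = p ^ a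

/-- The number of cosets fixed by a subgroup. -/
def fixNum (H C : Subgroup Δ) : ℕ := Nat.card {s : Δ ⧸ H // ∀ c ∈ C, c • s = s}

omit [Finite Δ] in
theorem fixNum_zpowers (H : Subgroup Δ) (x : Δ) :
    fixNum H (Subgroup.zpowers x) = Nat.card {s : Δ ⧸ H // x • s = s} :=
  Nat.card_congr (Equiv.subtypeEquivRight fun s =>
    ⟨fun h => h x (Subgroup.mem_zpowers x), fun h _ hc =>
      (Subgroup.zpowers_le.mpr (show x ∈ MulAction.stabilizer Δ s from h)) hc⟩)

omit [Finite Δ] in
theorem fixNum_conj (H C : Subgroup Δ) (t : Δ) :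
    fixNum H (C.map (MulAut.conj t).toMonoidHom) = fixNum H C := by
  refine Nat.card_congr ((MulAction.toPerm t⁻¹).subtypeEquiv fun s => ⟨fun h c hc => ?_, ?_⟩)
  · show c • t⁻¹ • s = t⁻¹ • s
    have := h _ (Subgroup.mem_map_of_mem _ hc)
    rw [eq_inv_smul_iff, ← mul_smul, ← mul_smul]
    exact this
  · rintro h _ ⟨c, hc, rfl⟩
    have h1 : c • t⁻¹ • s = t⁻¹ • s := h c hc
    show (t * c * t⁻¹) • s = s
    rw [mul_smul, mul_smul, h1, smul_inv_smul]

theorem exists_sylow_sub (D : Subgroup Δ) (hD : ¬ p ∣ Nat.card D) :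
    ∃ H : Subgroup Δ, IsPNilp p H ∧ (∀ x ∈ H, ¬ p ∣ orderOf x → x ∈ D) ∧ D ≤ H ∧
      H ≤ Subgroup.normalizer (D : Set Δ) ∧ ¬ p ∣ H.relIndex (Subgroup.normalizer (D : Set Δ)) := by
  set N := Subgroup.normalizer (D : Set Δ)
  haveI : (D.subgroupOf N).Normal := Subgroup.normal_in_normalizer
  let S : Sylow p (N ⧸ D.subgroupOf N) := default
  let H' : Subgroup N := (S : Subgroup (N ⧸ D.subgroupOf N)).comap (QuotientGroup.mk' _)
  let H : Subgroup Δ := H'.map N.subtype
  have hHN : H ≤ N := Subgroup.map_subtype_le H'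
  have hsub : H.subgroupOf N = H' :=
    Subgroup.comap_map_eq_self_of_injective N.subtype_injective H'
  have hDN : D ≤ N := Subgroup.le_normalizer
  have hDH : D ≤ H := fun x hx => ⟨⟨x, hDN hx⟩, by
    show QuotientGroup.mk' (D.subgroupOf N) ⟨x, hDN hx⟩ ∈ (S : Subgroup _)
    rw [show QuotientGroup.mk' (D.subgroupOf N) ⟨x, hDN hx⟩ = 1 from
      (QuotientGroup.eq_one_iff _).mpr hx]
    exact one_mem _, rfl⟩
  obtain ⟨b, hb⟩ := S.isPGroup'.exists_card_eq
  have hidx : H.relIndex N = (S : Subgroup (N ⧸ D.subgroupOf N)).index := by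
    rw [Subgroup.relIndex, hsub, Subgroup.index_comap_of_surjective _
      (QuotientGroup.mk'_surjective _)]
  refine ⟨H, ⟨D, b, hDH, fun h hh x hx => ?_, hD, ?_⟩, fun x hx hreg => ?_, hDH, hHN, ?_⟩
  · exact (Subgroup.mem_normalizer_iff.mp (hHN hh) x).mp hx
  · have h1 := Subgroup.relIndex_mul_relIndex D H N hDH hHN
    have h2 : D.relIndex N = p ^ b * (S : Subgroup (N ⧸ D.subgroupOf N)).index := by
      rw [← hb, Subgroup.card_mul_index]
      rfl
    rw [h2, hidx] at h1
    exact mul_right_cancel₀ Subgroup.index_ne_zero_of_finite h1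
  · obtain ⟨y, hy, rfl⟩ := hx
    have h1 : (QuotientGroup.mk' (D.subgroupOf N) y) ^ p ^ b = 1 := by
      have := pow_card_eq_one' (x := (⟨_, hy⟩ : (S : Subgroup (N ⧸ D.subgroupOf N))))
      rw [hb] at this
      exact congrArg Subtype.val this
    have h2 : orderOf (QuotientGroup.mk' (D.subgroupOf N) y) ∣ orderOf (N.subtype y) := by
      rw [orderOf_injective N.subtype N.subtype_injective y]
      exact orderOf_map_dvd _ y
    have h3 : orderOf (QuotientGroup.mk' (D.subgroupOf N) y) = 1 :=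
      Nat.eq_one_of_dvd_coprimes
        (Nat.Coprime.pow_left b (hp.out.coprime_iff_not_dvd.mpr hreg))
        (orderOf_dvd_of_pow_eq_one h1) h2
    exact (QuotientGroup.eq_one_iff y).mp (orderOf_eq_one_iff.mp h3)
  · rw [hidx]
    exact S.not_dvd_index

theorem exists_triangular {C : Subgroup Δ} (hC : IsCycReg p C) :
    ∃ H : Subgroup Δ, IsPNilp p H ∧ (fixNum H C : ZMod p) ≠ 0 ∧
      ∀ C' : Subgroup Δ, IsCycReg p C' → fixNum H C' ≠ 0 →
        Nat.card C' < Nat.card C ∨ ∃ t : Δ, C' = C.map (MulAut.conj t).toMonoidHom := by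
  classical
  obtain ⟨c, hc, rfl⟩ := hC
  obtain ⟨H, hH, hreg, hDH, hHN, hidx⟩ :=
    exists_sylow_sub (p := p) (Subgroup.zpowers c) (by rwa [Nat.card_zpowers])
  set N := Subgroup.normalizer (Subgroup.zpowers c : Set Δ)
  have hfix : ∀ (x a : Δ), x • (a : Δ ⧸ H) = a ↔ a⁻¹ * x * a ∈ H := fun x a => by
    rw [MulAction.Quotient.smul_mk, smul_eq_mul, eq_comm, QuotientGroup.eq, mul_assoc]
  have hin : ∀ x a : Δ, ¬ p ∣ orderOf x → a⁻¹ * x * a ∈ H →
      a⁻¹ * x * a ∈ Subgroup.zpowers c := fun x a hx h => hreg _ h (by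
    have : orderOf (a⁻¹ * x * a) = orderOf x := by
      simpa [MulAut.conj_apply] using MulEquiv.orderOf_eq (MulAut.conj a⁻¹) x
    rwa [this])
  refine ⟨H, hH, ?_, fun C' ⟨x, hx, hxC⟩ hne => ?_⟩
  · rw [fixNum_zpowers]
    intro h0
    refine hidx ((ZMod.natCast_eq_zero_iff _ _).mp (Eq.trans (congrArg _ ?_) h0))
    refine Nat.card_congr (Equiv.ofBijective (fun t => Quotient.liftOn' t
      (fun v : N => (⟨((v : Δ) : Δ ⧸ H), ?_⟩ : {s : Δ ⧸ H // c • s = s})) ?_) ⟨?_, ?_⟩)
    · refine (hfix c v).mpr (hDH ?_)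
      have := (Subgroup.mem_normalizer_iff.mp (N.inv_mem v.2) c).mp (Subgroup.mem_zpowers c)
      rwa [inv_inv] at this
    · intro v v' hv
      exact Subtype.ext (QuotientGroup.eq.mpr
        (Subgroup.mem_subgroupOf.mp (QuotientGroup.leftRel_apply.mp hv)))
    · rintro ⟨v⟩ ⟨v'⟩ hv
      have h5 : ((v : Δ) : Δ ⧸ H) = ((v' : Δ) : Δ ⧸ H) := congrArg Subtype.val hv
      exact Quotient.sound' (QuotientGroup.leftRel_apply.mpr
        (Subgroup.mem_subgroupOf.mpr (QuotientGroup.eq.mp h5)))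
    · rintro ⟨s, hs⟩
      obtain ⟨a, rfl⟩ := QuotientGroup.mk_surjective s
      have h1 := hin c a hc ((hfix c a).mp hs)
      have h2 : (Subgroup.zpowers c).map (MulAut.conj a⁻¹).toMonoidHom = Subgroup.zpowers c := by
        refine Subgroup.eq_of_le_of_card_ge ?_ (le_of_eq ?_)
        · rw [MonoidHom.map_zpowers, Subgroup.zpowers_le]
          simpa [MulAut.conj_apply] using h1
        · exact (Nat.card_congr (Subgroup.equivMapOfInjective (Subgroup.zpowers c)
            (MulAut.conj a⁻¹).toMonoidHom (MulAut.conj a⁻¹).injective).toEquiv)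
      have ha : a⁻¹ ∈ N := Subgroup.mem_normalizer_iff.mpr fun y => by
        conv_rhs => rw [← h2]
        exact (Subgroup.mem_map_iff_mem (K := Subgroup.zpowers c)
          (f := (MulAut.conj a⁻¹).toMonoidHom) (MulAut.conj a⁻¹).injective).symm
      exact ⟨QuotientGroup.mk ⟨a, by simpa using N.inv_mem ha⟩, rfl⟩
  · subst hxC
    rw [fixNum_zpowers, Nat.card_ne_zero] at hne
    obtain ⟨⟨s, hs⟩⟩ := hne.1
    obtain ⟨a, rfl⟩ := QuotientGroup.mk_surjective s
    have h1 := hin x a hx ((hfix x a).mp hs)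
    have hmap : (Subgroup.zpowers x).map (MulAut.conj a⁻¹).toMonoidHom ≤ Subgroup.zpowers c := by
      rw [MonoidHom.map_zpowers, Subgroup.zpowers_le]
      simpa [MulAut.conj_apply] using h1
    have hcard : Nat.card ((Subgroup.zpowers x).map (MulAut.conj a⁻¹).toMonoidHom) =
        Nat.card (Subgroup.zpowers x) :=
      (Nat.card_congr (Subgroup.equivMapOfInjective (Subgroup.zpowers x)
        (MulAut.conj a⁻¹).toMonoidHom (MulAut.conj a⁻¹).injective).toEquiv).symm
    rcases (hcard ▸ Subgroup.card_le_of_le hmap).lt_or_eq with hlt | heq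
    · exact Or.inl hlt
    · refine Or.inr ⟨a, ?_⟩
      rw [← Subgroup.eq_of_le_of_card_ge hmap (by rw [hcard, heq]), Subgroup.map_map]
      refine (Subgroup.map_id _).symm.trans ?_
      congr 1
      ext y
      simp [MulAut.conj_apply, mul_assoc]

/-- The constant function `1` is a combination of the permutation characters. -/
theorem exists_weights : ∃ w : {H : Subgroup Δ // IsPNilp p H} → ZMod p,
    ∀ [Fintype {H : Subgroup Δ // IsPNilp p H}] (C : Subgroup Δ), IsCycReg p C →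
      ∑ H, w H * (fixNum H.1 C : ZMod p) = 1 := by
  classical
  letI : Fintype (Subgroup Δ) := Fintype.ofFinite _
  suffices h : ∀ ψ : Subgroup Δ → ZMod p,
      (∀ C t, ψ (C.map (MulAut.conj t : Δ ≃* Δ).toMonoidHom) = ψ C) →
      ∃ w : {H : Subgroup Δ // IsPNilp p H} → ZMod p,
        ∀ C, IsCycReg p C → ∑ H, w H * (fixNum H.1 C : ZMod p) = ψ C by
    obtain ⟨w, hw⟩ := h (fun _ => 1) fun _ _ => rfl
    exact ⟨w, fun {inst} C hC => by convert hw C hC⟩
  intro ψ
  set n := Fintype.card (Subgroup Δ)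
  induction hm : ∑ C ∈ Finset.univ.filter (fun C => IsCycReg p C ∧ ψ C ≠ 0),
    (n + 1) ^ Nat.card C using Nat.strong_induction_on generalizing ψ with
  | _ m ih =>
  intro hψ
  by_cases hz : ∀ C, IsCycReg p C → ψ C = 0
  · exact ⟨0, fun C hC => by simp [hz C hC]⟩
  push Not at hz
  obtain ⟨C, hC, hC0⟩ := hz
  obtain ⟨H, hH, hH0, htri⟩ := exists_triangular hC
  set r := ψ C * (fixNum H C : ZMod p)⁻¹ with hr
  set ψ' : Subgroup Δ → ZMod p := fun X => ψ X - r * (fixNum H X : ZMod p) with hψ'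
  have hψ'inv : ∀ X t, ψ' (X.map (MulAut.conj t : Δ ≃* Δ).toMonoidHom) = ψ' X := fun X t => by
    simp only [hψ', hψ, fixNum_conj]
  have hψ'C : ψ' C = 0 := by simp [hψ', hr, mul_assoc, inv_mul_cancel₀ hH0]
  have hlt : ∑ X ∈ Finset.univ.filter (fun X => IsCycReg p X ∧ ψ' X ≠ 0), (n + 1) ^ Nat.card X <
      m := by
    rw [← hm]
    set S := Finset.univ.filter (fun X : Subgroup Δ => IsCycReg p X ∧ ψ X ≠ 0)
    set S' := Finset.univ.filter (fun X : Subgroup Δ => IsCycReg p X ∧ ψ' X ≠ 0)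
    rw [← Finset.sum_filter_add_sum_filter_not S' (fun X => X ∈ S),
      ← Finset.sum_filter_add_sum_filter_not S (fun X => X = C)]
    have hnew : ∑ X ∈ S'.filter (fun X => X ∉ S), (n + 1) ^ Nat.card X < (n + 1) ^ Nat.card C := by
      have hpos : 0 < Nat.card C := Nat.card_pos
      calc ∑ X ∈ S'.filter (fun X => X ∉ S), (n + 1) ^ Nat.card X
          ≤ ∑ _X ∈ S'.filter (fun X => X ∉ S), (n + 1) ^ (Nat.card C - 1) := by
            refine Finset.sum_le_sum fun X hX => Nat.pow_le_pow_right (Nat.succ_pos n) ?_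
            simp only [S', S, Finset.mem_filter, Finset.mem_univ, true_and, not_and, not_not] at hX
            obtain ⟨⟨hXc, hX'⟩, hX0⟩ := hX
            have hfX : fixNum H X ≠ 0 := fun h0 => hX' (by simp [hψ', h0, hX0 hXc])
            rcases htri X hXc hfX with h | ⟨t, rfl⟩
            · omega
            · exact absurd (by rw [hψ'inv, hψ'C]) hX'
        _ ≤ n * (n + 1) ^ (Nat.card C - 1) := by
            rw [Finset.sum_const, smul_eq_mul]
            exact Nat.mul_le_mul_right _ (Finset.card_le_univ _)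
        _ < (n + 1) * (n + 1) ^ (Nat.card C - 1) :=
            Nat.mul_lt_mul_of_pos_right (Nat.lt_succ_self n) (pow_pos (Nat.succ_pos n) _)
        _ = (n + 1) ^ Nat.card C := by rw [← pow_succ', Nat.sub_add_cancel hpos]
    have hold : ∑ X ∈ S'.filter (fun X => X ∈ S), (n + 1) ^ Nat.card X ≤
        ∑ X ∈ S.filter (fun X => ¬ X = C), (n + 1) ^ Nat.card X := by
      refine Finset.sum_le_sum_of_subset fun X hX => ?_
      rw [Finset.mem_filter] at hX ⊢
      refine ⟨hX.2, fun h => ?_⟩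
      have := (Finset.mem_filter.mp hX.1).2.2
      exact this (h ▸ hψ'C)
    have hSC : S.filter (fun X => X = C) = {C} := Finset.ext fun X => by
      simp only [Finset.mem_filter, Finset.mem_singleton]
      exact ⟨fun h => h.2, fun h => ⟨by subst h; simp [S, hC, hC0], h⟩⟩
    rw [hSC, Finset.sum_singleton]
    omega
  obtain ⟨w, hw⟩ := ih _ hlt ψ' rfl hψ'inv
  refine ⟨w + Pi.single ⟨H, hH⟩ r, fun X hX => ?_⟩
  simp only [Pi.add_apply, add_mul, Finset.sum_add_distrib, hw X hX]
  rw [Finset.sum_eq_single (⟨H, hH⟩ : {H : Subgroup Δ // IsPNilp p H})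
    (fun Y _ hY => by rw [Pi.single_eq_of_ne hY, zero_mul])
    (fun h => absurd (Finset.mem_univ _) h), Pi.single_eq_same]
  simp [hψ']

/-- An additive function vanishing on the permutation twists is divisible by `p`. -/
theorem dvd_of_perm {F : AMod (ZMod p) 𝔸 → ℤ} (hF : IsAdditive F)
    (h0 : ∀ (H : Subgroup Δ) (V : AMod (ZMod p) 𝔸), ¬ p ∣ Nat.card H → F (perm H V) = 0)
    (V : AMod (ZMod p) 𝔸) : (p : ℤ) ∣ F V := by
  classical
  letI : Fintype {H : Subgroup Δ // IsPNilp p H} := Fintype.ofFinite _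
  obtain ⟨w, hw⟩ := exists_weights (p := p) (Δ := Δ)
  have hz : ∀ H : {H : Subgroup Δ // IsPNilp p H}, F (perm H.1 V) = 0 := fun H => by
    obtain ⟨D, a, h1, h2, h3, h4⟩ := H.2
    exact perm_eq_zero hF V (fun H' => h0 H' V) a H.1 D h1 h2 h3 h4
  let l : List (ZMod p × AMod (ZMod p) 𝔸) :=
    ((1 : ZMod p), V) :: (Finset.univ : Finset {H : Subgroup Δ // IsPNilp p H}).toList.map
      fun H => (-w H, perm H.1 V)
  have hl : ∀ G : AMod (ZMod p) 𝔸 → ZMod p, (l.map fun x => x.1 * G x.2).sum =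
      G V - ∑ H, w H * G (perm H.1 V) := fun G => by
    simp only [l, List.map_cons, List.sum_cons, one_mul, List.map_map, Function.comp_def,
      Finset.sum_map_toList, neg_mul, Finset.sum_neg_distrib, sub_eq_add_neg]
  have hgroup : ∀ g : Δ,
      (l.map fun x => x.1 * x.2.tr (MonoidAlgebra.of (ZMod p) Δ g)).sum = 0 := fun g => by
    obtain ⟨s, hs, hst⟩ := exists_regular (p := p) (k := ZMod p) g
    simp only [hst]
    rw [hl fun W => W.tr (MonoidAlgebra.of (ZMod p) Δ s)]
    simp only [tr_perm, ← mul_assoc, ← Finset.sum_mul, ← fixNum_zpowers]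
    rw [hw (Subgroup.zpowers s) ⟨s, hs, rfl⟩, one_mul, sub_self]
  have hall : ∀ a, (l.map fun x => x.1 * x.2.tr a).sum = 0 := fun a => by
    induction a using MonoidAlgebra.induction_on with
    | of g => exact hgroup g
    | add a b ha hb => simp only [map_add, mul_add, List.sum_map_add, ha, hb, add_zero]
    | smul c a ha =>
      simp only [map_smul, smul_eq_mul, mul_left_comm _ c, List.sum_map_mul_left, ha, mul_zero]
  have h := sum_eq_zero_of_tr (F := fun W => (F W : ZMod p))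
    (fun V₁ V₂ V₃ i π h1 h2 h3 => by
      show (F V₂ : ZMod p) = (F V₁ : ZMod p) + (F V₃ : ZMod p)
      rw [hF V₁ V₂ V₃ i π h1 h2 h3, Int.cast_add]) l hall
  rw [hl fun W => (F W : ZMod p)] at h
  simp only [hz, Int.cast_zero, mul_zero, Finset.sum_const_zero, sub_zero] at h
  exact (ZMod.intCast_zmod_eq_zero_iff_dvd _ _).mp h

theorem eq_zero_of_perm {F : AMod (ZMod p) 𝔸 → ℤ} (hF : IsAdditive F)
    (h0 : ∀ (H : Subgroup Δ) (V : AMod (ZMod p) 𝔸), ¬ p ∣ Nat.card H → F (perm H V) = 0)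
    (V : AMod (ZMod p) 𝔸) : F V = 0 := by
  have hp0 : (p : ℤ) ≠ 0 := by exact_mod_cast hp.out.ne_zero
  have h : ∀ n : ℕ, ∀ F : AMod (ZMod p) 𝔸 → ℤ, IsAdditive F →
      (∀ (H : Subgroup Δ) (V : AMod (ZMod p) 𝔸), ¬ p ∣ Nat.card H → F (perm H V) = 0) →
      ∀ V, (p : ℤ) ^ n ∣ F V := by
    intro n
    induction n with
    | zero => intro F _ _ V; rw [pow_zero]; exact one_dvd _
    | succ n ih =>
      intro F hF h0 V
      choose F' hF' using dvd_of_perm hF h0
      obtain ⟨d, hd⟩ := ih F' (fun V₁ V₂ V₃ i π h1 h2 h3 => mul_left_cancel₀ hp0 (by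
          rw [mul_add, ← hF', ← hF', ← hF']; exact hF V₁ V₂ V₃ i π h1 h2 h3))
        (fun H W hH => mul_left_cancel₀ hp0 (by rw [← hF', h0 H W hH, mul_zero])) V
      exact ⟨d, by rw [hF', hd, pow_succ']; ring⟩
  by_contra hne
  obtain ⟨d, hd⟩ := h (F V).natAbs F hF h0 V
  have h1 : p ^ (F V).natAbs ≤ (F V).natAbs := Nat.le_of_dvd (Int.natAbs_pos.mpr hne)
    (Int.natCast_dvd.mp (by exact_mod_cast (⟨d, hd⟩ : (p : ℤ) ^ (F V).natAbs ∣ F V)))
  exact absurd h1 (not_le.mpr (Nat.lt_pow_self hp.out.one_lt))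

/-! ## Functions of modules over the group -/

/-- The representation of a module killed by `p`. -/
def zmodRep (M : Type) [AddCommGroup M] [Module (ZMod p) M] [DistribMulAction Δ M]
    [SMulCommClass Δ (ZMod p) M] : Δ →* Module.End (ZMod p) M :=
  DistribMulAction.toModuleEnd (ZMod p) M

/-- An additive function on finite modules killed by `p` which vanishes on the permutation twists
of subgroups of order prime to `p` vanishes. -/
theorem additive_eq_zero_perm
    (f : ∀ (M : Type) [AddCommGroup M] [Finite M] [DistribMulAction Δ M], ℤ)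
    (hadd : ∀ (A B M : Type) [AddCommGroup A] [AddCommGroup B] [AddCommGroup M] [Finite A]
      [Finite B] [Finite M] [DistribMulAction Δ A] [DistribMulAction Δ B] [DistribMulAction Δ M]
      (i : A →+ B) (π : B →+ M), IsExactSeq (G := Δ) i π → (∀ b : B, p • b = 0) →
      f B = f A + f M)
    (hperm : ∀ (H : Subgroup Δ) (M : Type) [AddCommGroup M] [Finite M] [DistribMulAction Δ M],
      (∀ m : M, p • m = 0) → ¬ p ∣ Nat.card H → f (PermMod H M) = 0)
    (M : Type) [AddCommGroup M] [Finite M] [DistribMulAction Δ M] (hM : ∀ m : M, p • m = 0) :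
    f M = 0 := by
  have hkill : ∀ (V : AMod (ZMod p) 𝔸) (v : V), p • v = 0 := fun V v => by
    rw [← Nat.cast_smul_eq_nsmul (ZMod p), ZMod.natCast_self, zero_smul]
  let F : AMod (ZMod p) 𝔸 → ℤ := fun V => @f V _ _ V.act
  have hequiv : ∀ (A B : Type) [AddCommGroup A] [AddCommGroup B] [Finite A] [Finite B]
      [DistribMulAction Δ A] [DistribMulAction Δ B] (e : A ≃+ B),
      (∀ (g : Δ) x, e (g • x) = g • e x) → (∀ b : B, p • b = 0) → f A = f B := by
    intro A B _ _ _ _ _ _ e he hB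
    let Z : Type := (⊥ : AddSubgroup B)
    letI : DistribMulAction Δ Z :=
      { smul := fun _ z => z
        one_smul := fun _ => rfl
        mul_smul := fun _ _ _ => rfl
        smul_zero := fun _ => rfl
        smul_add := fun _ _ _ => rfl }
    have hsub : Subsingleton Z := ⟨fun a b => Subtype.ext (a.2.trans b.2.symm)⟩
    have h0 : f Z = 0 := by
      have := hadd Z Z Z (AddMonoidHom.id Z) 0 ⟨fun a b h => h,
        fun v => ⟨v, Subsingleton.elim _ _⟩,
        fun v => ⟨fun _ => ⟨v, rfl⟩, fun _ => Subsingleton.elim _ _⟩, fun g a => rfl,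
        fun g b => rfl⟩ fun b => Subsingleton.elim _ _
      exact left_eq_add.mp this
    have := hadd A B Z e.toAddMonoidHom 0 ⟨e.injective, fun z => ⟨0, Subsingleton.elim _ _⟩,
      fun b => ⟨fun _ => ⟨e.symm b, e.apply_symm_apply b⟩, fun _ => rfl⟩, he,
      fun g b => Subsingleton.elim _ _⟩ hB
    rw [h0, add_zero] at this
    exact this.symm
  have hFadd : IsAdditive F := fun V₁ V₂ V₃ i π h1 h2 h3 =>
    @hadd V₁ V₂ V₃ _ _ _ _ _ _ V₁.act V₂.act V₃.act i.toAddMonoidHom π.toAddMonoidHom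
      (@IsExactSeq.mk Δ _ V₁ V₂ V₃ _ _ _ V₁.act V₂.act V₃.act _ _ h1 h2 h3
        (fun g a => map_smul i _ a) (fun g b => map_smul π _ b)) (hkill V₂)
  have hF0 : ∀ (H : Subgroup Δ) (V : AMod (ZMod p) 𝔸), ¬ p ∣ Nat.card H →
      F (perm H V) = 0 := fun H V hH => by
    letI := V.act
    refine Eq.trans ?_ (hperm H V (hkill V) hH)
    exact (@hequiv (perm H V) (PermMod H V) _ _ _ _ (perm H V).act _ (AddEquiv.refl (Δ ⧸ H → V))
      (fun g φ => ofRep_smul (permRep H V) g φ) fun b => funext fun s => hkill V (b s))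
  letI : Module (ZMod p) M := AddCommGroup.zmodModule hM
  haveI : SMulCommClass Δ (ZMod p) M :=
    ⟨fun g c m => ZMod.map_smul (DistribSMul.toAddMonoidHom M g) c m⟩
  let ρ := zmodRep (p := p) (Δ := Δ) M
  refine Eq.trans ?_ (eq_zero_of_perm hFadd hF0 (ofRep (ZMod p) ρ))
  exact @hequiv M (ofRep (ZMod p) ρ : AMod (ZMod p) 𝔸) _ _ _ _ _
    (ofRep (ZMod p) ρ : AMod (ZMod p) 𝔸).act (AddEquiv.refl M)
    (fun g m => (ofRep_smul ρ g m).symm) (hkill _)

end Fermat.Agent.GD.Artin
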