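import Fermat.Agent.GD.Engine.Artin.Trace

/-!
# Traces of monomial modules
-/

set_option autoImplicit false

noncomputable section

namespace Fermat.Agent.GD.Artin

variable {Δ : Type} [Group Δ]

section Coinduced

variable (H : Subgroup Δ) (W : Type) [AddCommGroup W] [DistribMulAction H W]

/-- The module induced from a subgroup, as functions on the group. -/
def coind : AddSubgroup (Δ → W) where
  carrier := {φ | ∀ (h : H) x, φ (h * x) = h • φ x}
  zero_mem' := fun h x => (smul_zero h).symm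
  add_mem' := fun ha hb h x => by simp [ha h x, hb h x, smul_add]
  neg_mem' := fun ha h x => by simp [ha h x, smul_neg]

instance coindAction : DistribMulAction Δ (coind H W) where
  smul g φ := ⟨fun x => φ.1 (x * g), fun h x => by
    show φ.1 (h * x * g) = h • φ.1 (x * g)
    rw [← φ.2 h, mul_assoc]⟩
  one_smul φ := Subtype.ext (funext fun x => congrArg φ.1 (mul_one x))
  mul_smul g g' φ := Subtype.ext (funext fun x => congrArg φ.1 (mul_assoc x g g').symm)
  smul_zero g := rfl
  smul_add g φ φ' := rfl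

end Coinduced

/-- The transfer element. -/
def eta (H : Subgroup Δ) (g : Δ) (s : Δ ⧸ H) : H :=
  ⟨(g • s).out⁻¹ * g * s.out, by
    rw [mul_assoc]
    exact QuotientGroup.eq.mp (by
      rw [QuotientGroup.out_eq', ← smul_eq_mul, ← MulAction.Quotient.smul_mk,
        QuotientGroup.out_eq'])⟩

theorem eta_mul (H : Subgroup Δ) (g g' : Δ) (s : Δ ⧸ H) :
    eta H (g * g') s = eta H g (g' • s) * eta H g' s := by
  apply Subtype.ext
  show ((g * g') • s).out⁻¹ * (g * g') * s.out = ((g • g' • s).out⁻¹ * g * (g' • s).out) *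
    ((g' • s).out⁻¹ * g' * s.out)
  rw [mul_smul]
  group

theorem eta_one (H : Subgroup Δ) (s : Δ ⧸ H) : eta H 1 s = 1 := by
  apply Subtype.ext
  show ((1 : Δ) • s).out⁻¹ * 1 * s.out = 1
  rw [one_smul, mul_one, inv_mul_cancel]

variable (k : Type) [Field k]

/-- The monomial representation of a character of a subgroup. -/
def monoRep (H : Subgroup Δ) (χ : H →* k) : Δ →* Module.End k (Δ ⧸ H → k) where
  toFun g :=
    { toFun := fun φ s => χ (eta H g (g⁻¹ • s)) * φ (g⁻¹ • s)
      map_add' := fun a b => funext fun s => mul_add _ _ _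
      map_smul' := fun c a => funext fun s => mul_left_comm _ c _ }
  map_one' := LinearMap.ext fun φ => funext fun s => by
    show χ (eta H 1 ((1 : Δ)⁻¹ • s)) * φ ((1 : Δ)⁻¹ • s) = φ s
    rw [eta_one, map_one, one_mul, inv_one, one_smul]
  map_mul' g g' := LinearMap.ext fun φ => funext fun s => by
    show χ (eta H (g * g') ((g * g')⁻¹ • s)) * φ ((g * g')⁻¹ • s) =
      χ (eta H g (g⁻¹ • s)) * (χ (eta H g' (g'⁻¹ • g⁻¹ • s)) * φ (g'⁻¹ • g⁻¹ • s))
    rw [eta_mul, mul_inv_rev, mul_smul g'⁻¹ g⁻¹ s, smul_inv_smul, map_mul, mul_assoc]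

variable [Finite Δ]

theorem trace_monoRep (H : Subgroup Δ) (χ : H →* k) [Fintype (Δ ⧸ H)] [DecidableEq (Δ ⧸ H)]
    (g : Δ) :
    LinearMap.trace k (Δ ⧸ H → k) (monoRep k H χ g) =
      ∑ s : Δ ⧸ H, if g • s = s then χ (eta H g s) else 0 := by
  rw [LinearMap.trace_eq_matrix_trace k (Pi.basisFun k (Δ ⧸ H))]
  refine Finset.sum_congr rfl fun s _ => ?_
  rw [Matrix.diag_apply, LinearMap.toMatrix_apply, Pi.basisFun_apply, Pi.basisFun_repr]
  show χ (eta H g (g⁻¹ • s)) * (Pi.single s (1 : k) : Δ ⧸ H → k) (g⁻¹ • s) = _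
  by_cases h : g • s = s
  · rw [if_pos h, inv_smul_eq_iff.mpr h.symm, Pi.single_eq_same, mul_one]
  · rw [if_neg h, Pi.single_eq_of_ne, mul_zero]
    exact fun h' => h (inv_smul_eq_iff.mp h').symm

variable [Finite k]

/-- A representation as a module over the group algebra. -/
def ofRep {V : Type} [AddCommGroup V] [Module k V] [Finite V] (ρ : Δ →* Module.End k V) :
    AMod k (MonoidAlgebra k Δ) :=
  letI : Module (MonoidAlgebra k Δ) V :=
    Module.compHom V ((MonoidAlgebra.lift k (Module.End k V) Δ) ρ).toRingHom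
  { carrier := V
    tower := ⟨fun c a v => by
      show ((MonoidAlgebra.lift k (Module.End k V) Δ) ρ (c • a)) v =
        c • ((MonoidAlgebra.lift k (Module.End k V) Δ) ρ a) v
      rw [map_smul, LinearMap.smul_apply]⟩ }

/-- The monomial module. -/
def mono (H : Subgroup Δ) (χ : H →* k) : AMod k (MonoidAlgebra k Δ) := ofRep k (monoRep k H χ)

theorem tr_mono (H : Subgroup Δ) (χ : H →* k) [Fintype (Δ ⧸ H)] [DecidableEq (Δ ⧸ H)] (g : Δ) :
    (mono k H χ).tr (MonoidAlgebra.of k Δ g) =
      ∑ s : Δ ⧸ H, if g • s = s then χ (eta H g s) else 0 := by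
  rw [← trace_monoRep k H χ g, AMod.tr_apply]
  refine congrArg (LinearMap.trace k (Δ ⧸ H → k)) ?_
  refine LinearMap.ext fun v => ?_
  show ((MonoidAlgebra.lift k _ Δ) (monoRep k H χ) (MonoidAlgebra.of k Δ g)) v = _
  rw [MonoidAlgebra.lift_of]
  rfl

variable {k}

/-- The action of the group on a module over the group algebra. -/
@[reducible]
def AMod.act (V : AMod k (MonoidAlgebra k Δ)) : DistribMulAction Δ V :=
  DistribMulAction.compHom V (MonoidAlgebra.of k Δ)

/-- A line with the action of a character. -/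
def Line {H : Subgroup Δ} (_χ : H →* k) : Type := k

instance {H : Subgroup Δ} (χ : H →* k) : AddCommGroup (Line χ) := inferInstanceAs (AddCommGroup k)

instance {H : Subgroup Δ} (χ : H →* k) : Finite (Line χ) := inferInstanceAs (Finite k)

instance {H : Subgroup Δ} (χ : H →* k) : DistribMulAction H (Line χ) where
  smul h a := (χ h * (show k from a) : k)
  one_smul a := show χ 1 * _ = _ by rw [map_one, one_mul]
  mul_smul h h' a := show χ (h * h') * _ = χ h * (χ h' * _) by rw [map_mul, mul_assoc]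
  smul_zero h := mul_zero (χ h)
  smul_add h a b := mul_add (χ h) (show k from a) (show k from b)

/-- The coinduced line is the monomial module. -/
def coindMonoEquiv (H : Subgroup Δ) (χ : H →* k) : coind H (Line χ) ≃+ (Δ ⧸ H → k) where
  toFun φ s := φ.1 s.out⁻¹
  invFun ψ := ⟨fun x => (χ ⟨x * (QuotientGroup.mk x⁻¹ : Δ ⧸ H).out, by
      have := QuotientGroup.eq.mp (QuotientGroup.out_eq' (QuotientGroup.mk x⁻¹ : Δ ⧸ H)).symm
      rwa [inv_inv] at this⟩ * ψ (QuotientGroup.mk x⁻¹) : k),
    fun h x => by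
      have e1 : (QuotientGroup.mk (((h : Δ) * x)⁻¹) : Δ ⧸ H) = QuotientGroup.mk x⁻¹ := by
        rw [QuotientGroup.eq, inv_inv, mul_assoc, mul_inv_cancel, mul_one]
        exact h.2
      show χ _ * ψ _ = χ h * (χ _ * ψ _)
      rw [← mul_assoc, ← map_mul]
      refine congrArg₂ (· * ·) (congrArg χ (Subtype.ext ?_)) (congrArg ψ e1)
      show (h : Δ) * x * _ = (h : Δ) * (x * _)
      rw [e1, mul_assoc]⟩
  left_inv φ := by
    refine Subtype.ext (funext fun x => ?_)
    refine (φ.2 _ _).symm.trans ?_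
    refine congrArg φ.1 ?_
    rw [mul_inv_cancel_right]
  right_inv ψ := funext fun s => by
    show χ _ * ψ _ = ψ s
    have e1 : (QuotientGroup.mk ((s.out⁻¹)⁻¹) : Δ ⧸ H) = s := by
      rw [inv_inv, QuotientGroup.out_eq']
    rw [show χ _ = 1 from (congrArg χ (Subtype.ext (by
      show s.out⁻¹ * _ = 1
      rw [e1, inv_mul_cancel]))).trans (map_one χ), one_mul, e1]
  map_add' φ φ' := rfl

omit [Finite Δ] [Finite k] in
theorem coindMonoEquiv_smul (H : Subgroup Δ) (χ : H →* k) (g : Δ) (φ : coind H (Line χ)) :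
    coindMonoEquiv H χ (g • φ) = monoRep k H χ g (coindMonoEquiv H χ φ) := funext fun s => by
  show φ.1 (s.out⁻¹ * g) = χ (eta H g (g⁻¹ • s)) * (show k from φ.1 (g⁻¹ • s).out⁻¹)
  refine Eq.trans ?_ (φ.2 (eta H g (g⁻¹ • s)) _)
  refine congrArg φ.1 ?_
  show _ = (g • g⁻¹ • s).out⁻¹ * g * (g⁻¹ • s).out * (g⁻¹ • s).out⁻¹
  rw [smul_inv_smul, mul_inv_cancel_right]

end Fermat.Agent.GD.Artin
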