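import Mathlib

/-!
# Additive functions on finite modules and traces
-/

set_option autoImplicit false

noncomputable section

namespace Fermat.Agent.GD.Artin

variable (k : Type) [Field k] (A : Type) [Ring A] [Algebra k A]

/-- A finite module over a `k`-algebra. -/
structure AMod : Type 1 where
  carrier : Type
  [acg : AddCommGroup carrier]
  [modk : Module k carrier]
  [modA : Module A carrier]
  [tower : IsScalarTower k A carrier]
  [fin : Finite carrier]

attribute [instance] AMod.acg AMod.modk AMod.modA AMod.tower AMod.fin

instance : CoeSort (AMod k A) Type := ⟨AMod.carrier⟩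

variable {k A}

/-- A submodule as a module. -/
abbrev AMod.sub (V : AMod k A) (W : Submodule A V) : AMod k A := ⟨W⟩

instance (V : AMod k A) (W : Submodule A V) : Finite (V ⧸ W) :=
  Finite.of_surjective _ (Submodule.mkQ_surjective W)

/-- A quotient as a module. -/
abbrev AMod.quot (V : AMod k A) (W : Submodule A V) : AMod k A := ⟨V ⧸ W⟩

/-- The trace of an element of the algebra on a module. -/
def AMod.tr (V : AMod k A) : A →ₗ[k] k :=
  (LinearMap.trace k V).comp (Algebra.lsmul k k V).toLinearMap

theorem AMod.tr_apply (V : AMod k A) (a : A) :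
    V.tr a = LinearMap.trace k V (Algebra.lsmul k k V a) := rfl

/-- Additivity in short exact sequences. -/
def IsAdditive {X : Type*} [AddCommGroup X] (F : AMod k A → X) : Prop :=
  ∀ (V₁ V₂ V₃ : AMod k A) (i : V₁ →ₗ[A] V₂) (π : V₂ →ₗ[A] V₃), Function.Injective i →
    Function.Surjective π → Function.Exact i π → F V₂ = F V₁ + F V₃

variable {X : Type*} [AddCommGroup X] {F : AMod k A → X}

theorem IsAdditive.subsingleton (hF : IsAdditive F) (V : AMod k A) [Subsingleton V] : F V = 0 := by
  have h := hF V V V LinearMap.id 0 (fun a b h => h) (fun v => ⟨v, Subsingleton.elim _ _⟩)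
    (fun v => ⟨fun _ => ⟨v, rfl⟩, fun _ => Subsingleton.elim _ _⟩)
  exact left_eq_add.mp h

theorem IsAdditive.congr (hF : IsAdditive F) {V W : AMod k A} (e : V ≃ₗ[A] W) : F V = F W := by
  let Z : AMod k A := AMod.sub W ⊥
  have : Subsingleton Z := ⟨fun a b => Subtype.ext
    (((Submodule.mem_bot A).mp (Subtype.prop (α := W) a)).trans
      ((Submodule.mem_bot A).mp (Subtype.prop (α := W) b)).symm)⟩
  have h := hF V W Z e.toLinearMap 0 e.injective (fun z => ⟨0, Subsingleton.elim _ _⟩)
    (fun w => ⟨fun _ => ⟨e.symm w, e.apply_symm_apply w⟩, fun _ => rfl⟩)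
  rw [hF.subsingleton Z, add_zero] at h
  exact h.symm

theorem IsAdditive.sub_quot (hF : IsAdditive F) (V : AMod k A) (W : Submodule A V) :
    F V = F (V.sub W) + F (V.quot W) :=
  hF (V.sub W) V (V.quot W) W.subtype W.mkQ Subtype.val_injective (Submodule.mkQ_surjective W)
    (LinearMap.exact_subtype_mkQ W)

theorem tr_sub_quot (V : AMod k A) (W : Submodule A V) (a : A) :
    V.tr a = (V.sub W).tr a + (V.quot W).tr a := by
  let φ : V →ₗ[k] V := Algebra.lsmul k k V a
  let ι : W →ₗ[k] V := W.subtype.restrictScalars k
  let q : V →ₗ[k] V ⧸ W := W.mkQ.restrictScalars k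
  obtain ⟨σ, hσ⟩ := q.exists_rightInverse_of_surjective
    (LinearMap.range_eq_top.mpr (Submodule.mkQ_surjective W))
  have hσ' : ∀ x, q (σ x) = x := LinearMap.congr_fun hσ
  have hmem : ∀ v, v - σ (q v) ∈ W := fun v => (Submodule.Quotient.eq W).mp (hσ' (q v)).symm
  let π : V →ₗ[k] W := LinearMap.codRestrict (W.restrictScalars k) (LinearMap.id - σ.comp q) hmem
  have hsum : φ = (φ.comp ι).comp π + (φ.comp σ).comp q := LinearMap.ext fun v => by
    show φ v = φ (v - σ (q v)) + φ (σ (q v))
    rw [← map_add, sub_add_cancel]
  rw [AMod.tr_apply, AMod.tr_apply, AMod.tr_apply]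
  conv_lhs => rw [show Algebra.lsmul k k V a = φ from rfl, hsum]
  rw [map_add]
  congr 1
  · rw [LinearMap.trace_comp_comm']
    congr 1
    refine LinearMap.ext fun w => Subtype.ext ?_
    show a • (w : V) - σ (q (a • (w : V))) = a • (w : V)
    rw [show q (a • (w : V)) = 0 from (Submodule.Quotient.mk_eq_zero W).mpr (W.smul_mem a w.2),
      map_zero, sub_zero]
  · rw [LinearMap.trace_comp_comm']
    congr 1
    refine LinearMap.ext fun x => ?_
    show q (a • σ x) = a • x
    exact (map_smul W.mkQ a (σ x)).trans (congrArg (a • ·) (hσ' x))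

variable [Finite k]

/-- An endomorphism of nonzero trace commuting with all module endomorphisms. -/
theorem exists_trace_ne_zero (S : AMod k A) [IsSimpleModule A S] :
    ∃ φ : S →ₗ[k] S, LinearMap.trace k S φ ≠ 0 ∧
      ∀ (e : Module.End A S) (v : S), φ (e v) = e (φ v) := by
  classical
  have : Finite (Module.End A S) := Finite.of_injective _ DFunLike.coe_injective
  let : Field (Module.End A S) := littleWedderburn _
  have := IsSimpleModule.nontrivial A S
  let b := Module.Free.chooseBasis (Module.End A S) S
  obtain ⟨i⟩ : Nonempty (Module.Free.ChooseBasisIndex (Module.End A S) S) :=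
    b.index_nonempty
  obtain ⟨x, hx⟩ : ∃ x : Module.End A S, Algebra.trace k (Module.End A S) x ≠ 0 := by
    by_contra h
    push Not at h
    exact Algebra.trace_ne_zero k (Module.End A S) (LinearMap.ext h)
  let π : S →ₗ[k] Module.End A S :=
    { toFun := fun v => b.coord i v
      map_add' := map_add _
      map_smul' := fun c v => by
        rw [RingHom.id_apply]
        have : c • v = (c • (1 : Module.End A S)) • v := rfl
        rw [this, map_smul, smul_eq_mul, smul_mul_assoc, one_mul] }
  let ι : Module.End A S →ₗ[k] S :=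
    { toFun := fun e => (e * x) • b i
      map_add' := fun e e' => by rw [add_mul, add_smul]
      map_smul' := fun c e => by
        rw [RingHom.id_apply, smul_mul_assoc]
        rfl }
  refine ⟨ι.comp π, ?_, fun e v => ?_⟩
  · rw [← LinearMap.trace_comp_comm']
    convert hx using 1
    rw [Algebra.trace_apply]
    congr 1
    refine LinearMap.ext fun e => ?_
    show b.coord i ((e * x) • b i) = x * e
    rw [map_smul, Module.Basis.coord_apply, b.repr_self, Finsupp.single_eq_same, smul_eq_mul,
      mul_one, mul_comm]
  · show (b.coord i (e • v) * x) • b i = e • (b.coord i v * x) • b i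
    rw [map_smul, smul_eq_mul, ← mul_smul, mul_assoc]

/-- A combination of modules with vanishing trace is killed by additive functions. -/
theorem sum_eq_zero_of_tr {F : AMod k A → k} (hF : IsAdditive F) (l : List (k × AMod k A))
    (h : ∀ a, (l.map fun x => x.1 * x.2.tr a).sum = 0) : (l.map fun x => x.1 * F x.2).sum = 0 := by
  classical
  induction hn : (l.map fun x => (Nat.card x.2) ^ 2).sum using Nat.strong_induction_on
    generalizing l with
  | _ n ih =>
  subst hn
  by_cases hs : ∀ x ∈ l, IsSimpleModule A x.2
  swap
  · push Not at hs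
    obtain ⟨⟨c, V⟩, hmem, hV⟩ := hs
    obtain ⟨l₁, l₂, rfl⟩ := List.mem_iff_append.mp hmem
    have hlt : 0 < (Nat.card V) ^ 2 := pow_pos Nat.card_pos 2
    rcases subsingleton_or_nontrivial V with hsub | hnt
    · have htr : ∀ a, V.tr a = 0 := fun a => by
        rw [AMod.tr_apply, Subsingleton.elim (Algebra.lsmul k k V a : V →ₗ[k] V) 0, map_zero]
      have h' : ∀ a, ((l₁ ++ l₂).map fun x => x.1 * x.2.tr a).sum = 0 := fun a => by
        have := h a
        simp only [List.map_append, List.map_cons, List.sum_append, List.sum_cons, htr, mul_zero,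
          zero_add] at this ⊢
        exact this
      have := ih _ (by simp only [List.map_append, List.map_cons, List.sum_append, List.sum_cons]
                       omega) _ h' rfl
      simp only [List.map_append, List.map_cons, List.sum_append, List.sum_cons,
        hF.subsingleton V, mul_zero, zero_add] at this ⊢
      exact this
    · obtain ⟨W, hW0, hW1⟩ : ∃ W : Submodule A V, W ≠ ⊥ ∧ W ≠ ⊤ := by
        by_contra hc
        push Not at hc
        exact hV (isSimpleModule_iff _ _ |>.mpr
          ⟨fun W => (em (W = ⊥)).imp id fun h0 => hc W h0⟩)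
      have hc : Nat.card V = Nat.card W * Nat.card (V ⧸ W) := W.card_eq_card_quotient_mul_card
      have h2 : 1 < Nat.card W := by
        have := Submodule.nontrivial_iff_ne_bot.mpr hW0
        exact Finite.one_lt_card
      have h3 : 1 < Nat.card (V ⧸ W) := by
        have := Submodule.Quotient.nontrivial_iff.mpr hW1
        exact Finite.one_lt_card
      let l' : List (k × AMod k A) := (c, V.sub W) :: (c, V.quot W) :: (l₁ ++ l₂)
      have h' : ∀ a, (l'.map fun x => x.1 * x.2.tr a).sum = 0 := fun a => by
        have := h a
        simp only [List.map_append, List.map_cons, List.sum_append, List.sum_cons,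
          tr_sub_quot V W a, mul_add, l'] at this ⊢
        linear_combination this
      have := ih _ (by
        simp only [List.map_append, List.map_cons, List.sum_append, List.sum_cons, l']
        show _ < _
        rw [hc, mul_pow]
        have ha : 4 ≤ Nat.card W ^ 2 := by nlinarith
        have hb : 4 ≤ Nat.card (V ⧸ W) ^ 2 := by nlinarith
        nlinarith) _ h' rfl
      simp only [List.map_append, List.map_cons, List.sum_append, List.sum_cons,
        hF.sub_quot V W, mul_add, l'] at this ⊢
      linear_combination this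
  match l, h, hs, ih with
  | [], _, _, _ => simp
  | (c, S) :: t, h, hs, ih =>
    have hS : IsSimpleModule A S := hs _ List.mem_cons_self
    let iso : k × AMod k A → Bool := fun x => decide (Nonempty (S ≃ₗ[A] x.2))
    let yes := ((c, S) :: t).filter iso
    let no := ((c, S) :: t).filter fun x => !iso x
    have hsplit : ∀ G : k × AMod k A → k,
        (((c, S) :: t).map G).sum = (yes.map G).sum + (no.map G).sum := fun G => by
      rw [← List.sum_append, ← List.map_append]
      exact ((List.filter_append_perm iso _).map G).sum_eq.symm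
    have hyes : ∀ x ∈ yes, Nonempty (S ≃ₗ[A] x.2) := fun x hx => by
      simpa [iso] using (List.mem_filter.mp hx).2
    have hno : ∀ x ∈ no, ¬ Nonempty (S ≃ₗ[A] x.2) := fun x hx => by
      simpa [iso] using (List.mem_filter.mp hx).2
    obtain ⟨φ, hφ, hφc⟩ := exists_trace_ne_zero S
    let T : Fin no.length → Type := fun i => (no[i]).2
    have hT : ∀ i, IsSimpleModule A (T i) := fun i =>
      hs _ (List.mem_of_mem_filter (List.getElem_mem _))
    let M : Type := S.carrier × (∀ i, T i)
    have hhom : ∀ i, (∀ u : S →ₗ[A] T i, u = 0) ∧ ∀ u : T i →ₗ[A] S, u = 0 := fun i => by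
      have := hT i
      refine ⟨fun u => ?_, fun u => ?_⟩
      · by_contra hu
        exact hno _ (List.getElem_mem i.2)
          ⟨LinearEquiv.ofBijective u (LinearMap.bijective_of_ne_zero hu)⟩
      · by_contra hu
        exact hno _ (List.getElem_mem i.2)
          ⟨(LinearEquiv.ofBijective u (LinearMap.bijective_of_ne_zero hu)).symm⟩
    have h01 : ∀ u : S →ₗ[A] (∀ i, T i), u = 0 := fun u => LinearMap.ext fun v => funext fun i =>
      LinearMap.congr_fun ((hhom i).1 ((LinearMap.proj i).comp u)) v
    have h10 : ∀ u : (∀ i, T i) →ₗ[A] S, u = 0 := fun u => LinearMap.pi_ext fun i v =>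
      LinearMap.congr_fun ((hhom i).2 (u.comp (LinearMap.single A T i))) v
    let Φ : M → M := fun m => (φ m.1, 0)
    have hΦ : ∀ (e : Module.End A M) (m : M), Φ (e m) = e (Φ m) := fun e m => by
      have e1 : ∀ v : S, (e (v, 0)).2 = 0 := fun v =>
        LinearMap.congr_fun (h01 ((LinearMap.snd A S (∀ i, T i)).comp
          (e.comp (LinearMap.inl A S (∀ i, T i))))) v
      have e2 : (e m).1 = (e (m.1, 0)).1 := by
        have hd : m = ((m.1, 0) : M) + (0, m.2) := Prod.ext (add_zero _).symm (zero_add _).symm
        conv_lhs => rw [hd, map_add, Prod.fst_add]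
        rw [show (e ((0 : S), m.2)).1 = 0 from
          LinearMap.congr_fun (h10 ((LinearMap.fst A S (∀ i, T i)).comp
            (e.comp (LinearMap.inr A S (∀ i, T i))))) m.2, add_zero]
      refine Prod.ext ?_ (e1 _).symm
      show φ (e m).1 = (e (φ m.1, 0)).1
      rw [e2]
      exact hφc ((LinearMap.fst A S (∀ i, T i)).comp (e.comp (LinearMap.inl A S (∀ i, T i)))) m.1
    have : Fintype M := Fintype.ofFinite _
    have : ∀ i, IsSimpleModule A (T i) := hT
    have : IsSemisimpleModule A M := by
      let i₁ := LinearMap.inl A S.carrier (∀ i, T i)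
      let i₂ := LinearMap.inr A S.carrier (∀ i, T i)
      have h₁ : IsSemisimpleModule A (LinearMap.range i₁) :=
        IsSemisimpleModule.congr (LinearEquiv.ofInjective i₁ LinearMap.inl_injective).symm
      have h₂ : IsSemisimpleModule A (LinearMap.range i₂) :=
        IsSemisimpleModule.congr (LinearEquiv.ofInjective i₂ LinearMap.inr_injective).symm
      have h₃ := IsSemisimpleModule.sup h₁ h₂
      rw [LinearMap.sup_range_inl_inr] at h₃
      exact IsSemisimpleModule.congr Submodule.topEquiv.symm
    obtain ⟨r, hr⟩ := jacobson_density (R := A) (M := M)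
      ({ toFun := Φ
         map_add' := fun m m' => by
           show (φ (m.1 + m'.1), (0 : ∀ i, T i)) = (φ m.1, 0) + (φ m'.1, 0)
           rw [map_add, Prod.mk_add_mk, add_zero]
         map_smul' := fun e m => hΦ e m } : Module.End (Module.End A M) M) Finset.univ
    have hrS : ∀ v : S, r • v = φ v := fun v => by
      exact congrArg Prod.fst (hr (v, 0) (Finset.mem_univ _)).symm
    have hrT : ∀ i (v : T i), r • v = (0 : T i) := fun i v => by
      classical
      have h2 : r • (Pi.single i v : ∀ j, T j) i = (0 : T i) :=
        congrFun (congrArg Prod.snd (hr (0, Pi.single i v) (Finset.mem_univ _)).symm) i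
      rwa [Pi.single_eq_same] at h2
    have hyes' : ∀ x ∈ yes, x.2.tr r = LinearMap.trace k S φ := fun x hx => by
      obtain ⟨e⟩ := hyes x hx
      rw [← LinearMap.trace_conj' φ (e.restrictScalars k), AMod.tr_apply]
      congr 1
      refine LinearMap.ext fun v => ?_
      show r • v = e (φ (e.symm v))
      rw [← hrS, map_smul, e.apply_symm_apply]
    have hno' : ∀ x ∈ no, x.2.tr r = 0 := fun x hx => by
      obtain ⟨i, hi, rfl⟩ := List.getElem_of_mem hx
      rw [AMod.tr_apply, show (Algebra.lsmul k k (no[i]).2 r : (no[i]).2 →ₗ[k] _) = 0 from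
        LinearMap.ext fun v => hrT ⟨i, hi⟩ v, map_zero]
    have hz : ∀ a, (no.map fun x => x.1 * x.2.tr a).sum +
        (yes.map Prod.fst).sum * S.tr a = 0 := fun a => by
      have hyy : (yes.map fun x => x.1 * x.2.tr a) = yes.map fun x => x.1 * S.tr a := by
        refine List.map_congr_left fun x hx => ?_
        obtain ⟨e⟩ := hyes x hx
        rw [S.tr_apply, ← LinearMap.trace_conj' _ (e.restrictScalars k), AMod.tr_apply]
        congr 2
        refine LinearMap.ext fun v => ?_
        show a • v = e (a • e.symm v)
        rw [map_smul, e.apply_symm_apply]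
      rw [← h a, hsplit, hyy, add_comm, List.sum_map_mul_right]
    have hc0 : (yes.map Prod.fst).sum = 0 := by
      have h1 := hz r
      rw [List.sum_eq_zero (l := no.map fun x => x.1 * x.2.tr r) (by
        intro y hy
        obtain ⟨x, hx, rfl⟩ := List.mem_map.mp hy
        rw [hno' x hx, mul_zero]), zero_add] at h1
      exact (mul_eq_zero.mp h1).resolve_right
        (by rwa [hyes' (c, S) (List.mem_filter.mpr
          ⟨List.mem_cons_self, decide_eq_true ⟨LinearEquiv.refl A S⟩⟩)])
    have hlt : (no.map fun x => (Nat.card x.2) ^ 2).sum <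
        (((c, S) :: t).map fun x => (Nat.card x.2) ^ 2).sum := by
      have hp := ((List.filter_append_perm iso ((c, S) :: t)).map
        (fun x => (Nat.card x.2) ^ 2)).sum_eq
      rw [List.map_append, List.sum_append] at hp
      rw [← hp]
      refine lt_add_of_pos_left _ (lt_of_lt_of_le (pow_pos Nat.card_pos 2 : 0 < Nat.card S ^ 2) ?_)
      exact List.le_sum_of_mem (List.mem_map.mpr ⟨(c, S), List.mem_filter.mpr
          ⟨List.mem_cons_self, decide_eq_true ⟨LinearEquiv.refl A S⟩⟩, rfl⟩)
    have h1 := ih _ hlt no (fun a => by have := hz a; rwa [hc0, zero_mul, add_zero] at this) rfl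
    rw [hsplit, h1, add_zero,
      show (yes.map fun x => x.1 * F x.2) = yes.map fun x => x.1 * F S from
        List.map_congr_left fun x hx => by rw [hF.congr (hyes x hx).some],
      List.sum_map_mul_right, hc0, zero_mul]

end Fermat.Agent.GD.Artin
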